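import Fermat.Agent.LT.T6.H338.GTree

/-!
# Row LT, tower T6 — the tree of `GL₂(k)` (helper338, OFF-MAIN)

Registry row T6.13b.  `k` a field with `Valued k ℤᵐ⁰`, `hk : ∃ ϖ, v ϖ = exp (-1)`.

* `BT338 hk` : the quotient of `GL₂(k)` by `x⁻¹ y ∈ k^× GL₂(𝒪)` (`btMk338_eq_iff`);
* `btDist338 hk` : `a - b` for `cartan (x⁻¹ y) = (a, b)` (`btDist338_mk`);
* `isTreeDist_bt338` : `btDist338` is a tree distance (`IsTreeDist338` of `LT/H338/TreeDist.lean`);
* `ncard_nb_bt338` : for `IsLocalField k q` every vertex has exactly `q + 1` neighbours;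
* `btLeft338 γ`, `btTw338 s hs δ` : the maps `x ↦ γ x` and `x ↦ δ s(x)` (`s` a ring automorphism
  preserving the valuation) on the vertices; they preserve the distance.
-/

set_option autoImplicit false

open Matrix

open scoped Classical

noncomputable section

namespace Fermat.Agent.LT.H338

open Fermat.Agent.LT.T6 Fermat.Agent.LT.H129

variable {k : Type} [Field k] [Valued k Γ₀]

/-! ### Maps induced on the quotient of a pre-tree-distance -/

section QuotMap

variable {G : Type*} {D : G → G → ℕ} (hD : IsPreTreeDist338 D)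

/-- The map induced on the quotient by a `D`-preserving map. -/
def preMap338 (f : G → G) (hf : ∀ x y, D (f x) (f y) = D x y) : PreQuot338 hD → PreQuot338 hD :=
  Quotient.map (sa := preSetoid338 hD) (sb := preSetoid338 hD) f (by
    intro x y h
    show D (f x) (f y) = 0
    rw [hf]; exact h)

theorem preMap338_mk (f : G → G) (hf : ∀ x y, D (f x) (f y) = D x y) (x : G) :
    preMap338 hD f hf (preMk338 hD x) = preMk338 hD (f x) := rfl

theorem quotDist338_preMap (f : G → G) (hf : ∀ x y, D (f x) (f y) = D x y)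
    (x y : PreQuot338 hD) :
    quotDist338 hD (preMap338 hD f hf x) (preMap338 hD f hf y) = quotDist338 hD x y := by
  obtain ⟨x, rfl⟩ := preMk338_surj hD x
  obtain ⟨y, rfl⟩ := preMk338_surj hD y
  rw [preMap338_mk, preMap338_mk, quotDist338_mk, quotDist338_mk, hf]

end QuotMap

/-! ### The tree -/

section Tree

variable (hk : ∃ ϖ : k, Valued.v ϖ = WithZero.exp (-1 : ℤ))

/-- The vertices of the tree of `GL₂(k)`: `GL₂(k) / k^× GL₂(𝒪)`. -/
def BT338 : Type := PreQuot338 (isPreTreeDist_gD338 hk)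

/-- The vertex `g · [𝒪 ⊕ 𝒪]`. -/
def btMk338 (g : GL (Fin 2) k) : BT338 hk := preMk338 (isPreTreeDist_gD338 hk) g

/-- The distance on the tree. -/
def btDist338 : BT338 hk → BT338 hk → ℕ := quotDist338 (isPreTreeDist_gD338 hk)

theorem btMk338_surj (x : BT338 hk) : ∃ g, btMk338 hk g = x :=
  preMk338_surj (isPreTreeDist_gD338 hk) x

theorem btDist338_mk' (x y : GL (Fin 2) k) :
    btDist338 hk (btMk338 hk x) (btMk338 hk y) = gD338 x y := rfl

theorem btDist338_cast (x y : GL (Fin 2) k) :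
    ((btDist338 hk (btMk338 hk x) (btMk338 hk y) : ℕ) : ℤ) = gd338 (x⁻¹ * y) := by
  rw [btDist338_mk', gD338_cast]

/-- The distance is `a - b` for the Cartan invariant `(a, b)` of `x⁻¹ y`. -/
theorem btDist338_mk (x y : GL (Fin 2) k) :
    ((btDist338 hk (btMk338 hk x) (btMk338 hk y) : ℕ) : ℤ)
      = (cartan (x⁻¹ * y)).1 - (cartan (x⁻¹ * y)).2 := by
  rw [btDist338_cast, gd338_eq_cartan]

theorem btMk338_eq_iff_gd (x y : GL (Fin 2) k) :
    btMk338 hk x = btMk338 hk y ↔ gd338 (x⁻¹ * y) = 0 := by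
  exact (preMk338_eq_iff (isPreTreeDist_gD338 hk) x y).trans (by rw [gD338_eq_iff]; rfl)

/-- Two elements give the same vertex iff they differ by an element of `k^× GL₂(𝒪)`. -/
theorem btMk338_eq_iff (x y : GL (Fin 2) k) :
    btMk338 hk x = btMk338 hk y
      ↔ ∃ (z : k) (hz : z ≠ 0) (u : GL (Fin 2) k), InU 0 u ∧ y = x * (sc338 z hz * u) := by
  rw [btMk338_eq_iff_gd]
  constructor
  · intro h
    obtain ⟨z, hz, u, hu, e⟩ := exists_sc_of_gd_eq_zero338 h
    exact ⟨z, hz, u, hu, by rw [← e]; group⟩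
  · rintro ⟨z, hz, u, hu, rfl⟩
    rw [inv_mul_cancel_left, gd338_sc_mul, gd338_of_InU hu]

/-- **The tree of `GL₂(k)`**: `btDist338` is a tree distance. -/
theorem isTreeDist_bt338 : IsTreeDist338 (btDist338 hk) :=
  isTreeDist_quot338 (isPreTreeDist_gD338 hk)

end Tree

/-! ### Representatives of the neighbours -/

/-- `none ↦ w = !![0, 1; 1, 0]`, `some t ↦ !![1, 0; t, 1]`. -/
def rho338 : Option k → GL (Fin 2) k
  | none => weyl129
  | some t => lowerU129 t

theorem inU_rho338 {o : Option k} (ho : ∀ t ∈ o, Valued.v t ≤ 1) : InU 0 (rho338 o) := by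
  rw [inU_zero_iff129]
  cases o with
  | none => exact isMaxCpt129_weyl _
  | some t => exact isMaxCpt129_lowerU ((mem_vO129 t).2 (ho t rfl))

omit [Valued k Γ₀] in
theorem lowerU_inv_mul_apply338 (t : k) (u : GL (Fin 2) k) :
    (((lowerU129 t)⁻¹ * u : GL (Fin 2) k) : Matrix (Fin 2) (Fin 2) k) 1 0 = u 1 0 - t * u 0 0 := by
  rw [lowerU129_inv, Matrix.GeneralLinearGroup.coe_mul, Matrix.mul_apply, Fin.sum_univ_two]
  simp [lowerU129]
  ring

omit [Valued k Γ₀] in
theorem weyl_inv_mul_apply338 (u : GL (Fin 2) k) :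
    (((weyl129 : GL (Fin 2) k)⁻¹ * u : GL (Fin 2) k) : Matrix (Fin 2) (Fin 2) k) 1 0 = u 0 0 := by
  rw [weyl129_inv, coe_weyl129_mul]
  simp

/-- Separation: distinct representatives are not congruent. -/
theorem rho338_sep {T : Finset k}
    (hT : ∀ x ∈ T, ∀ y ∈ T, x ≠ y → Valued.v (x - y) = 1) {o o' : Option k}
    (ho : ∀ t ∈ o, t ∈ T) (ho' : ∀ t ∈ o', t ∈ T)
    (h : Valued.v ((((rho338 o)⁻¹ * rho338 o' : GL (Fin 2) k) :
      Matrix (Fin 2) (Fin 2) k) 1 0) < 1) : o = o' := by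
  cases o with
  | none =>
    cases o' with
    | none => rfl
    | some t' =>
      exfalso
      simp only [rho338] at h
      rw [weyl_inv_mul_apply338] at h
      simp [lowerU129] at h
  | some t =>
    cases o' with
    | none =>
      exfalso
      simp only [rho338] at h
      rw [lowerU_inv_mul_apply338] at h
      simp [weyl129] at h
    | some t' =>
      simp only [rho338] at h
      rw [lowerU_inv_mul_apply338] at h
      simp only [lowerU129, coe_mkGL129, Matrix.of_apply, Matrix.cons_val', Matrix.cons_val_zero,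
        Matrix.cons_val_one, Matrix.cons_val_fin_one, mul_one] at h
      by_contra hne
      have hne' : t' ≠ t := fun e => hne (by rw [e])
      have := hT t' (ho' t' rfl) t (ho t rfl) hne'
      rw [this] at h
      exact lt_irrefl _ h

/-- Exhaustion: every element of `GL₂(𝒪)` is congruent to a representative. -/
theorem rho338_exh {T : Finset k}
    (hT : ∀ z : k, Valued.v z ≤ 1 → ∃ x ∈ T, Valued.v (z - x) < 1)
    {u : GL (Fin 2) k} (hu : InU 0 u) :
    ∃ o : Option k, (∀ t ∈ o, t ∈ T) ∧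
      Valued.v ((((rho338 o)⁻¹ * u : GL (Fin 2) k) : Matrix (Fin 2) (Fin 2) k) 1 0) < 1 := by
  by_cases ha : Valued.v ((u : Matrix (Fin 2) (Fin 2) k) 0 0) = 1
  · have ha0 : (u : Matrix (Fin 2) (Fin 2) k) 0 0 ≠ 0 := by
      intro e; rw [e, map_zero] at ha; exact zero_ne_one ha
    have hz : Valued.v ((u : Matrix (Fin 2) (Fin 2) k) 1 0 / (u : Matrix (Fin 2) (Fin 2) k) 0 0)
        ≤ 1 := by
      rw [map_div₀, ha, div_one]
      exact entry_le_one_of_InU338 hu 1 0
    obtain ⟨t, ht, hlt⟩ := hT _ hz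
    refine ⟨some t, ?_, ?_⟩
    · intro t' ht'
      cases ht'
      exact ht
    · simp only [rho338]
      rw [lowerU_inv_mul_apply338]
      have e : (u : Matrix (Fin 2) (Fin 2) k) 1 0 - t * (u : Matrix (Fin 2) (Fin 2) k) 0 0
          = (u : Matrix (Fin 2) (Fin 2) k) 0 0
            * ((u : Matrix (Fin 2) (Fin 2) k) 1 0 / (u : Matrix (Fin 2) (Fin 2) k) 0 0 - t) := by
        field_simp
      rw [e, map_mul, ha, one_mul]
      exact hlt
  · refine ⟨none, ?_, ?_⟩
    · intro t ht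
      cases ht
    · simp only [rho338]
      rw [weyl_inv_mul_apply338]
      exact lt_of_le_of_ne (entry_le_one_of_InU338 hu 0 0) ha

/-! ### Regularity -/

/-- **Every vertex of the tree of `GL₂(k)` has exactly `q + 1` neighbours.** -/
theorem ncard_nb_bt338 {q : ℕ} (hk : IsLocalField k q) (x : BT338 hk.unif) :
    {w : BT338 hk.unif | btDist338 hk.unif x w = 1}.ncard = q + 1 := by
  obtain ⟨g₀, rfl⟩ := btMk338_surj hk.unif x
  obtain ⟨ϖ, hϖ⟩ := hk.unif
  have hne : ϖ ≠ 0 := ne_zero_of_unif338 ϖ hϖ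
  obtain ⟨T, hTq, hT1, hTsep, hTexh⟩ := hk.residue
  set S : Finset (Option k) := Finset.insertNone T with hS
  have hSmem : ∀ o ∈ S, ∀ t ∈ o, t ∈ T := fun o ho => Finset.mem_insertNone.1 ho
  have hSU : ∀ o ∈ S, InU 0 (rho338 o) := fun o ho =>
    inU_rho338 (fun t ht => hT1 t (hSmem o ho t ht))
  set f : Option k → GL (Fin 2) k := fun o => g₀ * (rho338 o * dpi338 ϖ hne) with hf
  have hconj : ∀ o o' : Option k, (f o)⁻¹ * f o'
      = (dpi338 ϖ hne)⁻¹ * ((rho338 o)⁻¹ * rho338 o') * dpi338 ϖ hne := by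
    intro o o'; simp only [hf]; group
  have hsep : ∀ o ∈ S, ∀ o' ∈ S, gd338 ((f o)⁻¹ * f o') = 0 → o = o' := by
    intro o ho o' ho' h
    rw [hconj, gd338_conj_dpi_eq_zero_iff ϖ hne hϖ
      (inU_zero_mul129 (inU_zero_inv129 (hSU o ho)) (hSU o' ho'))] at h
    exact rho338_sep hTsep (hSmem o ho) (hSmem o' ho') h
  have hinj : Set.InjOn f (S : Set (Option k)) := by
    intro o ho o' ho' e
    apply hsep o ho o' ho'
    rw [e, inv_mul_cancel, gd338_one]
  have hcard : (S.image f).card = q + 1 := by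
    rw [Finset.card_image_of_injOn hinj, hS, Finset.card_insertNone, hTq]
  rw [← hcard]
  refine ncard_nb_quot338 (isPreTreeDist_gD338 hk.unif) g₀ (S.image f) ?_ ?_ ?_
  · intro r hr
    obtain ⟨o, ho, rfl⟩ := Finset.mem_image.1 hr
    rw [gD338_eq_iff]
    simp only [hf]
    rw [inv_mul_cancel_left, gd338_mul_left_U _ (hSU o ho), gd338_dpi ϖ hne hϖ]; rfl
  · intro r hr r' hr' h
    obtain ⟨o, ho, rfl⟩ := Finset.mem_image.1 hr
    obtain ⟨o', ho', rfl⟩ := Finset.mem_image.1 hr'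
    rw [gD338_eq_iff] at h
    rw [hsep o ho o' ho' (by simpa using h)]
  · intro w hw
    have h1 : gd338 (g₀⁻¹ * w) = 1 := by rw [gD338_eq_iff] at hw; simpa using hw
    obtain ⟨u₁, a, hu₁, ha, e₁⟩ := exists_of_gd_eq_one338 ϖ hne hϖ h1
    obtain ⟨o, ho, hlt⟩ := rho338_exh hTexh hu₁
    have hoS : o ∈ S := Finset.mem_insertNone.2 ho
    refine ⟨f o, Finset.mem_image_of_mem f hoS, ?_⟩
    rw [gD338_eq_iff]
    have e : (f o)⁻¹ * w
        = (dpi338 ϖ hne)⁻¹ * ((rho338 o)⁻¹ * u₁) * dpi338 ϖ hne * a := by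
      have : (f o)⁻¹ * w = (rho338 o * dpi338 ϖ hne)⁻¹ * (g₀⁻¹ * w) := by
        simp only [hf]; group
      rw [this, e₁]; group
    rw [e, gd338_mul_right_of_eq_zero _ ha]
    rw [(gd338_conj_dpi_eq_zero_iff ϖ hne hϖ
      (inU_zero_mul129 (inU_zero_inv129 (hSU o hoS)) hu₁)).2 hlt]
    rfl

/-! ### The actions -/

theorem gD338_left (γ x y : GL (Fin 2) k) : gD338 (γ * x) (γ * y) = gD338 x y := by
  unfold gD338
  congr 2
  group

theorem entryMax_glAut338 (s : k ≃+* k) (hs : ∀ y : k, Valued.v (s y) = Valued.v y)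
    (g : GL (Fin 2) k) : entryMax (glAut s g) = entryMax g := by
  unfold entryMax
  congr 1
  funext p
  exact hs _

omit [Valued k Γ₀] in
theorem det_glAut338 (s : k ≃+* k) (g : GL (Fin 2) k) :
    ((glAut s g : GL (Fin 2) k) : Matrix (Fin 2) (Fin 2) k).det
      = s (g : Matrix (Fin 2) (Fin 2) k).det := by
  rw [det_eq338, det_eq338]
  simp [glAut]

theorem gd338_glAut (s : k ≃+* k) (hs : ∀ y : k, Valued.v (s y) = Valued.v y)
    (g : GL (Fin 2) k) : gd338 (glAut s g) = gd338 g := by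
  unfold gd338
  rw [entryMax_glAut338 s hs, det_glAut338, hs]

theorem cartan_glAut338 (s : k ≃+* k) (hs : ∀ y : k, Valued.v (s y) = Valued.v y)
    (g : GL (Fin 2) k) : cartan (glAut s g) = cartan g := by
  unfold cartan
  rw [entryMax_glAut338 s hs, det_glAut338, hs]

theorem gD338_tw (s : k ≃+* k) (hs : ∀ y : k, Valued.v (s y) = Valued.v y)
    (δ x y : GL (Fin 2) k) : gD338 (δ * glAut s x) (δ * glAut s y) = gD338 x y := by
  rw [gD338_left]
  unfold gD338
  rw [← map_inv, ← map_mul, gd338_glAut s hs]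

section Actions

variable (hk : ∃ ϖ : k, Valued.v ϖ = WithZero.exp (-1 : ℤ))

/-- The action of `γ ∈ GL₂(k)` on the vertices: `x ↦ γ x`. -/
def btLeft338 (γ : GL (Fin 2) k) : BT338 hk → BT338 hk :=
  preMap338 (isPreTreeDist_gD338 hk) (fun x => γ * x) (gD338_left γ)

/-- The twisted action: `x ↦ δ s(x)`. -/
def btTw338 (s : k ≃+* k) (hs : ∀ y : k, Valued.v (s y) = Valued.v y) (δ : GL (Fin 2) k) :
    BT338 hk → BT338 hk :=
  preMap338 (isPreTreeDist_gD338 hk) (fun x => δ * glAut s x) (gD338_tw s hs δ)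

theorem btLeft338_mk (γ x : GL (Fin 2) k) :
    btLeft338 hk γ (btMk338 hk x) = btMk338 hk (γ * x) := rfl

theorem btTw338_mk (s : k ≃+* k) (hs : ∀ y : k, Valued.v (s y) = Valued.v y)
    (δ x : GL (Fin 2) k) : btTw338 hk s hs δ (btMk338 hk x) = btMk338 hk (δ * glAut s x) := rfl

theorem btDist338_left (γ : GL (Fin 2) k) (x y : BT338 hk) :
    btDist338 hk (btLeft338 hk γ x) (btLeft338 hk γ y) = btDist338 hk x y :=
  quotDist338_preMap _ _ _ x y

theorem btDist338_tw (s : k ≃+* k) (hs : ∀ y : k, Valued.v (s y) = Valued.v y)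
    (δ : GL (Fin 2) k) (x y : BT338 hk) :
    btDist338 hk (btTw338 hk s hs δ x) (btTw338 hk s hs δ y) = btDist338 hk x y :=
  quotDist338_preMap _ _ _ x y

/-- The displacement of `x ↦ γ x` at the vertex of `x` is `a - b` for
`cartan (x⁻¹ γ x) = (a, b)`. -/
theorem btDist338_left_disp (γ x : GL (Fin 2) k) :
    ((btDist338 hk (btMk338 hk x) (btLeft338 hk γ (btMk338 hk x)) : ℕ) : ℤ)
      = (cartan (x⁻¹ * γ * x)).1 - (cartan (x⁻¹ * γ * x)).2 := by
  rw [btLeft338_mk, btDist338_mk, mul_assoc]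

/-- The displacement of `x ↦ δ s(x)` at the vertex of `x` is `a - b` for
`cartan (x⁻¹ δ s(x)) = (a, b)`. -/
theorem btDist338_tw_disp (s : k ≃+* k) (hs : ∀ y : k, Valued.v (s y) = Valued.v y)
    (δ x : GL (Fin 2) k) :
    ((btDist338 hk (btMk338 hk x) (btTw338 hk s hs δ (btMk338 hk x)) : ℕ) : ℤ)
      = (cartan (x⁻¹ * δ * glAut s x)).1 - (cartan (x⁻¹ * δ * glAut s x)).2 := by
  rw [btTw338_mk, btDist338_mk, mul_assoc]

theorem btLeft338_mul (γ γ' : GL (Fin 2) k) (x : BT338 hk) :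
    btLeft338 hk (γ * γ') x = btLeft338 hk γ (btLeft338 hk γ' x) := by
  obtain ⟨x, rfl⟩ := btMk338_surj hk x
  rw [btLeft338_mk, btLeft338_mk, btLeft338_mk, mul_assoc]

theorem btLeft338_one (x : BT338 hk) : btLeft338 hk 1 x = x := by
  obtain ⟨x, rfl⟩ := btMk338_surj hk x
  rw [btLeft338_mk, one_mul]

omit [Valued k Γ₀] in
theorem twN_succ_right338 {Γ : Type} [Group Γ] (s : Γ →* Γ) (n : ℕ) (δ : Γ) :
    twN s (n + 1) δ = twN s n δ * s^[n] δ := by
  induction n with
  | zero => simp [twN]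
  | succ n ih =>
    calc twN s (n + 1 + 1) δ = δ * s (twN s (n + 1) δ) := rfl
      _ = δ * s (twN s n δ * s^[n] δ) := by rw [ih]
      _ = (δ * s (twN s n δ)) * s (s^[n] δ) := by rw [map_mul, mul_assoc]
      _ = twN s (n + 1) δ * s^[n + 1] δ := by rw [Function.iterate_succ_apply']; rfl

/-- The `l`-th iterate of `x ↦ δ s(x)` is `x ↦ N(δ) s^l(x)`, `N δ = δ s(δ) ⋯ s^{l-1}(δ)`. -/
theorem btTw338_iterate (s : k ≃+* k) (hs : ∀ y : k, Valued.v (s y) = Valued.v y)
    (δ : GL (Fin 2) k) (l : ℕ) (x : GL (Fin 2) k) :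
    (btTw338 hk s hs δ)^[l] (btMk338 hk x)
      = btMk338 hk (twNorm s l δ * (glAut s)^[l] x) := by
  induction l generalizing x with
  | zero => simp [twNorm, twN]
  | succ n ih =>
    rw [Function.iterate_succ_apply, btTw338_mk, ih]
    congr 1
    rw [Function.iterate_succ_apply, iterate_map_mul, twNorm, twNorm, twN_succ_right338,
      mul_assoc]

omit [Valued k Γ₀] in
theorem glAut_iterate338 (s : k ≃+* k) (l : ℕ) (hl : ∀ y : k, (s ^ l) y = y)
    (x : GL (Fin 2) k) : (glAut s)^[l] x = x := by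
  have h : ∀ (n : ℕ) (g : GL (Fin 2) k) (i j : Fin 2),
      (((glAut s)^[n] g : GL (Fin 2) k) : Matrix (Fin 2) (Fin 2) k) i j = (s ^ n) (g i j) := by
    intro n
    induction n with
    | zero => intro g i j; simp
    | succ n ih =>
      intro g i j
      rw [Function.iterate_succ_apply', pow_succ']
      show s ((((glAut s)^[n] g : GL (Fin 2) k) : Matrix (Fin 2) (Fin 2) k) i j)
        = s ((s ^ n) (g i j))
      rw [ih]
  apply ext_mat129
  ext i j
  rw [h, hl]

/-- If `s^l = 1` the `l`-th iterate of `x ↦ δ s(x)` is the action of the norm `N δ`. -/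
theorem btTw338_iterate_eq_left (s : k ≃+* k) (hs : ∀ y : k, Valued.v (s y) = Valued.v y)
    (δ : GL (Fin 2) k) (l : ℕ) (hl : ∀ y : k, (s ^ l) y = y) (x : BT338 hk) :
    (btTw338 hk s hs δ)^[l] x = btLeft338 hk (twNorm s l δ) x := by
  obtain ⟨x, rfl⟩ := btMk338_surj hk x
  rw [btTw338_iterate, glAut_iterate338 s l hl, btLeft338_mk]

end Actions

end Fermat.Agent.LT.H338

end
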