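import Fermat.Agent.LT.T6.Spec
import Fermat.Agent.LT.H129.CartanInv

/-!
# Row LT, tower T6 — the distance `a - b` of the Cartan invariant on `GL₂(k)` (helper338, OFF-MAIN)

Helper lemmas for T6.10 / T6.13 / T6.14 (registry row T6.13b).  `k` any field with `Valued k ℤᵐ⁰`.
`gd338 g = 2 log (entryMax g) - log v(det g) = a - b` for `cartan g = (a, b)`.
Vendored byte-identical: `T6/Spec.lean` (helper22@823e765ba), `H129/*` (helper129@b7820190f).
-/

set_option autoImplicit false

open Matrix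

noncomputable section

namespace Fermat.Agent.LT.H338

open Fermat.Agent.LT.T6 Fermat.Agent.LT.H129

variable {k : Type} [Field k] [Valued k Γ₀]

/-! ### Values -/

theorem lt_iff_le_mul_exp338 {x y : Γ₀} (hy : y ≠ 0) : x < y ↔ x ≤ y * WithZero.exp (-1 : ℤ) := by
  have h := WithZero.lt_mul_exp_iff_le (x := x) (y := y * WithZero.exp (-1 : ℤ))
    (mul_ne_zero hy WithZero.exp_ne_zero)
  rw [mul_assoc, ← WithZero.exp_add] at h
  simpa using h

theorem exp_neg_one_lt_one338 : (WithZero.exp (-1 : ℤ) : Γ₀) < 1 := by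
  rw [← WithZero.exp_zero, WithZero.exp_lt_exp]; norm_num

/-! ### Entries -/

omit [Valued k Γ₀] in
theorem det_eq338 (g : GL (Fin 2) k) :
    (g : Matrix (Fin 2) (Fin 2) k).det = g 0 0 * g 1 1 - g 0 1 * g 1 0 :=
  Matrix.det_fin_two _

theorem valued_det_ne_zero338 (g : GL (Fin 2) k) :
    Valued.v (g : Matrix (Fin 2) (Fin 2) k).det ≠ 0 := by
  rw [ne_eq, map_eq_zero, det_eq338]
  exact det_ne_zero129 g

theorem exists_entry_eq_entryMax338 (g : GL (Fin 2) k) :
    ∃ i j : Fin 2, Valued.v ((g : Matrix (Fin 2) (Fin 2) k) i j) = entryMax g := by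
  obtain ⟨p, -, hp⟩ := Finset.exists_mem_eq_sup' Finset.univ_nonempty
    (fun p : Fin 2 × Fin 2 => Valued.v ((g : Matrix (Fin 2) (Fin 2) k) p.1 p.2))
  exact ⟨p.1, p.2, hp.symm⟩

theorem valued_det_le338 (g : GL (Fin 2) k) :
    Valued.v (g : Matrix (Fin 2) (Fin 2) k).det ≤ entryMax g * entryMax g := by
  rw [det_eq338]
  refine le_trans (Valuation.map_sub _ _ _) (max_le ?_ ?_)
  · rw [map_mul]
    exact mul_le_mul' (entry_le_entryMax129 g 0 0) (entry_le_entryMax129 g 1 1)
  · rw [map_mul]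
    exact mul_le_mul' (entry_le_entryMax129 g 0 1) (entry_le_entryMax129 g 1 0)

theorem entryMax_ne_zero338 (g : GL (Fin 2) k) : entryMax g ≠ 0 := by
  intro h
  have := valued_det_le338 g
  rw [h, mul_zero] at this
  exact valued_det_ne_zero338 g (le_antisymm this zero_le)

/-! ### The function `gd = a - b` -/

/-- `a - b` for the Cartan invariant `(a, b)`. -/
def gd338 (g : GL (Fin 2) k) : ℤ :=
  2 * WithZero.log (entryMax g) - WithZero.log (Valued.v (g : Matrix (Fin 2) (Fin 2) k).det)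

theorem gd338_eq_cartan (g : GL (Fin 2) k) : gd338 g = (cartan g).1 - (cartan g).2 := by
  unfold gd338 cartan; ring

theorem gd338_nonneg (g : GL (Fin 2) k) : 0 ≤ gd338 g := by
  have h := valued_det_le338 g
  have h2 := (WithZero.log_le_log (valued_det_ne_zero338 g)
    (mul_ne_zero (entryMax_ne_zero338 g) (entryMax_ne_zero338 g))).2 h
  rw [WithZero.log_mul (entryMax_ne_zero338 g) (entryMax_ne_zero338 g)] at h2
  unfold gd338; omega

/-- `gd g = 0` iff `v(det g) = entryMax g ^ 2`. -/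
theorem gd338_eq_zero_iff (g : GL (Fin 2) k) :
    gd338 g = 0 ↔ Valued.v (g : Matrix (Fin 2) (Fin 2) k).det = entryMax g * entryMax g := by
  have hM := entryMax_ne_zero338 g
  constructor
  · intro h
    apply log_inj129 (valued_det_ne_zero338 g) (mul_ne_zero hM hM)
    rw [WithZero.log_mul hM hM]
    unfold gd338 at h; omega
  · intro h
    unfold gd338
    rw [h, WithZero.log_mul hM hM]; ring

/-- `gd g ≠ 0` iff `v(det g) < entryMax g ^ 2`. -/
theorem gd338_ne_zero_iff (g : GL (Fin 2) k) :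
    gd338 g ≠ 0 ↔ Valued.v (g : Matrix (Fin 2) (Fin 2) k).det < entryMax g * entryMax g := by
  rw [ne_eq, gd338_eq_zero_iff, lt_iff_le_and_ne]
  exact ⟨fun h => ⟨valued_det_le338 g, h⟩, fun h => h.2⟩

/-! ### Invariance -/

theorem gd338_mul_U (g : GL (Fin 2) k) {u u' : GL (Fin 2) k} (hu : InU 0 u) (hu' : InU 0 u') :
    gd338 (u * g * u') = gd338 g := by
  rw [gd338_eq_cartan, gd338_eq_cartan, cartan_mul129 hu hu']

theorem gd338_mul_right_U (g : GL (Fin 2) k) {u : GL (Fin 2) k} (hu : InU 0 u) :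
    gd338 (g * u) = gd338 g := by
  have h1 : InU 0 (1 : GL (Fin 2) k) := (inU_zero_iff129 _).2 (isMaxCpt129_one _)
  have := gd338_mul_U g h1 hu
  rwa [one_mul] at this

theorem gd338_mul_left_U (g : GL (Fin 2) k) {u : GL (Fin 2) k} (hu : InU 0 u) :
    gd338 (u * g) = gd338 g := by
  have h1 : InU 0 (1 : GL (Fin 2) k) := (inU_zero_iff129 _).2 (isMaxCpt129_one _)
  have := gd338_mul_U g hu h1
  rwa [mul_one] at this

/-- The scalar matrix `z`. -/
def sc338 (z : k) (hz : z ≠ 0) : GL (Fin 2) k := diag129 z z hz hz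

omit [Valued k Γ₀] in
theorem sc338_mul_apply (z : k) (hz : z ≠ 0) (g : GL (Fin 2) k) (i j : Fin 2) :
    ((sc338 z hz * g : GL (Fin 2) k) : Matrix (Fin 2) (Fin 2) k) i j = z * g i j := by
  rw [Matrix.GeneralLinearGroup.coe_mul, Matrix.mul_apply, Fin.sum_univ_two]
  fin_cases i <;> simp [sc338, diag129]

omit [Valued k Γ₀] in
theorem sc338_comm (z : k) (hz : z ≠ 0) (g : GL (Fin 2) k) : sc338 z hz * g = g * sc338 z hz := by
  apply ext_mat129
  ext i j
  rw [sc338_mul_apply, Matrix.GeneralLinearGroup.coe_mul, Matrix.mul_apply, Fin.sum_univ_two]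
  fin_cases j <;> simp [sc338, diag129, mul_comm]

theorem entryMax_sc338_mul (z : k) (hz : z ≠ 0) (g : GL (Fin 2) k) :
    entryMax (sc338 z hz * g) = Valued.v z * entryMax g := by
  have hvz : Valued.v z ≠ 0 := by rwa [ne_eq, map_eq_zero]
  apply le_antisymm
  · apply entryMax_le129
    intro i j
    rw [sc338_mul_apply, map_mul]
    exact mul_le_mul' le_rfl (entry_le_entryMax129 g i j)
  · obtain ⟨i, j, hij⟩ := exists_entry_eq_entryMax338 g
    rw [← hij, ← map_mul, ← sc338_mul_apply z hz g i j]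
    exact entry_le_entryMax129 _ i j

omit [Valued k Γ₀] in
theorem det_sc338_mul (z : k) (hz : z ≠ 0) (g : GL (Fin 2) k) :
    ((sc338 z hz * g : GL (Fin 2) k) : Matrix (Fin 2) (Fin 2) k).det
      = z * z * (g : Matrix (Fin 2) (Fin 2) k).det := by
  rw [det_eq338, det_eq338, sc338_mul_apply, sc338_mul_apply, sc338_mul_apply, sc338_mul_apply]
  ring

theorem gd338_sc_mul (z : k) (hz : z ≠ 0) (g : GL (Fin 2) k) :
    gd338 (sc338 z hz * g) = gd338 g := by
  have hvz : Valued.v z ≠ 0 := by rwa [ne_eq, map_eq_zero]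
  unfold gd338
  rw [entryMax_sc338_mul, det_sc338_mul, map_mul, map_mul,
    WithZero.log_mul hvz (entryMax_ne_zero338 g),
    WithZero.log_mul (mul_ne_zero hvz hvz) (valued_det_ne_zero338 g), WithZero.log_mul hvz hvz]
  ring

theorem gd338_mul_sc (z : k) (hz : z ≠ 0) (g : GL (Fin 2) k) :
    gd338 (g * sc338 z hz) = gd338 g := by
  rw [← sc338_comm, gd338_sc_mul]

/-! ### Elements with `gd = 0`, inverses -/

omit [Valued k Γ₀] in
theorem sc338_mul_sc338_inv (z : k) (hz : z ≠ 0) :
    sc338 z hz * sc338 z⁻¹ (inv_ne_zero hz) = 1 := by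
  apply ext_mat129
  ext i j
  rw [sc338_mul_apply]
  fin_cases i <;> fin_cases j <;> simp [sc338, diag129, hz]

/-- An element with `gd = 0` is a scalar times an element of `GL₂(𝒪)`. -/
theorem exists_sc_of_gd_eq_zero338 {g : GL (Fin 2) k} (h : gd338 g = 0) :
    ∃ (z : k) (hz : z ≠ 0) (u : GL (Fin 2) k), InU 0 u ∧ g = sc338 z hz * u := by
  obtain ⟨i, j, hij⟩ := exists_entry_eq_entryMax338 g
  have hM := entryMax_ne_zero338 g
  have hz : (g : Matrix (Fin 2) (Fin 2) k) i j ≠ 0 := by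
    intro e
    rw [e, map_zero] at hij
    exact hM hij.symm
  have hvz : Valued.v ((g : Matrix (Fin 2) (Fin 2) k) i j) ≠ 0 := by rwa [ne_eq, map_eq_zero]
  refine ⟨_, hz, sc338 _ (inv_ne_zero hz) * g, ?_, ?_⟩
  · rw [inU_zero_iff129]
    have hint : IsInt129 (vO129 k) (sc338 _ (inv_ne_zero hz) * g) := by
      intro a b
      rw [sc338_mul_apply, mem_vO129, map_mul, map_inv₀, hij]
      calc (entryMax g)⁻¹ * Valued.v ((g : Matrix (Fin 2) (Fin 2) k) a b)
          ≤ (entryMax g)⁻¹ * entryMax g := mul_le_mul' le_rfl (entry_le_entryMax129 g a b)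
        _ = 1 := inv_mul_cancel₀ hM
    refine ⟨hint, isInt129_inv_of_det hint ?_⟩
    rw [mem_vO129, map_inv₀, det_sc338_mul, map_mul, map_mul, map_inv₀,
      (gd338_eq_zero_iff g).1 h, hij]
    have : (entryMax g)⁻¹ * (entryMax g)⁻¹ * (entryMax g * entryMax g) = 1 := by
      field_simp
    rw [this, inv_one]
  · rw [← mul_assoc, sc338_mul_sc338_inv, one_mul]

theorem gd338_of_InU {u : GL (Fin 2) k} (hu : InU 0 u) : gd338 u = 0 := by
  have := gd338_mul_right_U (1 : GL (Fin 2) k) hu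
  rw [one_mul] at this
  rw [this, gd338_eq_zero_iff]
  have h1 : entryMax (1 : GL (Fin 2) k) = 1 := by
    apply le_antisymm
    · apply entryMax_le129
      intro i j
      by_cases hij : i = j
      · subst hij; simp
      · simp [hij]
    · have := entry_le_entryMax129 (1 : GL (Fin 2) k) 0 0
      simpa using this
  rw [h1]; simp

/-- Right invariance under the elements with `gd = 0`. -/
theorem gd338_mul_right_of_eq_zero (g : GL (Fin 2) k) {h : GL (Fin 2) k} (hh : gd338 h = 0) :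
    gd338 (g * h) = gd338 g := by
  obtain ⟨z, hz, u, hu, rfl⟩ := exists_sc_of_gd_eq_zero338 hh
  rw [← mul_assoc, gd338_mul_right_U _ hu, gd338_mul_sc]

theorem entry_inv338 (g : GL (Fin 2) k) (i j : Fin 2) :
    Valued.v (((g⁻¹ : GL (Fin 2) k) : Matrix (Fin 2) (Fin 2) k) i j)
      = Valued.v ((g : Matrix (Fin 2) (Fin 2) k) (1 - j) (1 - i))
        / Valued.v (g : Matrix (Fin 2) (Fin 2) k).det := by
  rw [inv_apply129, map_div₀, Matrix.adjugate_fin_two]
  fin_cases i <;> fin_cases j <;> simp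

theorem entryMax_inv338 (g : GL (Fin 2) k) :
    entryMax g⁻¹ = entryMax g / Valued.v (g : Matrix (Fin 2) (Fin 2) k).det := by
  apply le_antisymm
  · apply entryMax_le129
    intro i j
    rw [entry_inv338, div_eq_mul_inv, div_eq_mul_inv]
    exact mul_le_mul' (entry_le_entryMax129 g _ _) le_rfl
  · obtain ⟨i, j, hij⟩ := exists_entry_eq_entryMax338 g
    have := entry_le_entryMax129 g⁻¹ (1 - j) (1 - i)
    rw [entry_inv338] at this
    have e1 : (1 : Fin 2) - (1 - i) = i := by fin_cases i <;> rfl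
    have e2 : (1 : Fin 2) - (1 - j) = j := by fin_cases j <;> rfl
    rw [e1, e2, hij] at this
    exact this

theorem gd338_inv (g : GL (Fin 2) k) : gd338 g⁻¹ = gd338 g := by
  have hM := entryMax_ne_zero338 g
  have hd := valued_det_ne_zero338 g
  unfold gd338
  rw [entryMax_inv338, Matrix.coe_units_inv, Matrix.det_nonsing_inv, Ring.inverse_eq_inv',
    map_inv₀, WithZero.log_div hM hd, WithZero.log_inv]
  ring

end Fermat.Agent.LT.H338

end
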