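import Fermat.Agent.LT.T6.H338.GDist

/-!
# Row LT, tower T6 — one step on the tree: `gd (g * diag(1, ϖ)) = gd g ± 1` (helper338, OFF-MAIN)

Helper lemmas for T6.10 / T6.13 / T6.14 (registry row T6.13b).
-/

set_option autoImplicit false

open Matrix

noncomputable section

namespace Fermat.Agent.LT.H338

open Fermat.Agent.LT.T6 Fermat.Agent.LT.H129

variable {k : Type} [Field k] [Valued k Γ₀]

/-! ### Columns -/

/-- The largest valuation in the first column. -/
def c1max338 (g : GL (Fin 2) k) : Γ₀ :=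
  max (Valued.v ((g : Matrix (Fin 2) (Fin 2) k) 0 0)) (Valued.v ((g : Matrix (Fin 2) (Fin 2) k) 1 0))

/-- The largest valuation in the second column. -/
def c2max338 (g : GL (Fin 2) k) : Γ₀ :=
  max (Valued.v ((g : Matrix (Fin 2) (Fin 2) k) 0 1)) (Valued.v ((g : Matrix (Fin 2) (Fin 2) k) 1 1))

theorem entryMax_eq_max338 (g : GL (Fin 2) k) : entryMax g = max (c1max338 g) (c2max338 g) := by
  apply le_antisymm
  · apply entryMax_le129
    intro i j
    fin_cases i <;> fin_cases j <;> simp [c1max338, c2max338]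
  · exact max_le (max_le (entry_le_entryMax129 g 0 0) (entry_le_entryMax129 g 1 0))
      (max_le (entry_le_entryMax129 g 0 1) (entry_le_entryMax129 g 1 1))

theorem c1max_le338 (g : GL (Fin 2) k) : c1max338 g ≤ entryMax g := by
  rw [entryMax_eq_max338]; exact le_max_left _ _

theorem c2max_le338 (g : GL (Fin 2) k) : c2max338 g ≤ entryMax g := by
  rw [entryMax_eq_max338]; exact le_max_right _ _

theorem c2max_eq_of_c1max_lt338 {g : GL (Fin 2) k} (h : c1max338 g < entryMax g) :
    c2max338 g = entryMax g := by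
  rw [entryMax_eq_max338] at h ⊢
  rcases le_total (c1max338 g) (c2max338 g) with h' | h'
  · rw [max_eq_right h']
  · rw [max_eq_left h'] at h; exact absurd h (lt_irrefl _)

theorem entry_col1_le338 (g : GL (Fin 2) k) (i : Fin 2) :
    Valued.v ((g : Matrix (Fin 2) (Fin 2) k) i 0) ≤ c1max338 g := by
  fin_cases i <;> simp [c1max338]

theorem entry_col2_le338 (g : GL (Fin 2) k) (i : Fin 2) :
    Valued.v ((g : Matrix (Fin 2) (Fin 2) k) i 1) ≤ c2max338 g := by
  fin_cases i <;> simp [c2max338]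

theorem exists_col2_eq338 (g : GL (Fin 2) k) :
    ∃ i : Fin 2, Valued.v ((g : Matrix (Fin 2) (Fin 2) k) i 1) = c2max338 g := by
  rcases le_total (Valued.v ((g : Matrix (Fin 2) (Fin 2) k) 0 1))
    (Valued.v ((g : Matrix (Fin 2) (Fin 2) k) 1 1)) with h | h
  · exact ⟨1, by rw [c2max338, max_eq_right h]⟩
  · exact ⟨0, by rw [c2max338, max_eq_left h]⟩

/-! ### The step `diag(1, ϖ)` -/

/-- `diag(1, ϖ)`. -/
def dpi338 (ϖ : k) (hϖ : ϖ ≠ 0) : GL (Fin 2) k := diag129 1 ϖ one_ne_zero hϖ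

section Step

variable (ϖ : k) (hne : ϖ ≠ 0)

omit [Valued k Γ₀] in
theorem mul_dpi_col1_338 (g : GL (Fin 2) k) (i : Fin 2) :
    ((g * dpi338 ϖ hne : GL (Fin 2) k) : Matrix (Fin 2) (Fin 2) k) i 0 = g i 0 := by
  rw [Matrix.GeneralLinearGroup.coe_mul, Matrix.mul_apply, Fin.sum_univ_two]
  simp [dpi338, diag129]

omit [Valued k Γ₀] in
theorem mul_dpi_col2_338 (g : GL (Fin 2) k) (i : Fin 2) :
    ((g * dpi338 ϖ hne : GL (Fin 2) k) : Matrix (Fin 2) (Fin 2) k) i 1 = g i 1 * ϖ := by
  rw [Matrix.GeneralLinearGroup.coe_mul, Matrix.mul_apply, Fin.sum_univ_two]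
  simp [dpi338, diag129]

omit [Valued k Γ₀] in
theorem det_mul_dpi338 (g : GL (Fin 2) k) :
    ((g * dpi338 ϖ hne : GL (Fin 2) k) : Matrix (Fin 2) (Fin 2) k).det
      = (g : Matrix (Fin 2) (Fin 2) k).det * ϖ := by
  rw [det_eq338, det_eq338, mul_dpi_col1_338, mul_dpi_col1_338, mul_dpi_col2_338,
    mul_dpi_col2_338]
  ring

variable (hϖ : Valued.v ϖ = WithZero.exp (-1 : ℤ))

theorem c1max_mul_dpi338 (g : GL (Fin 2) k) : c1max338 (g * dpi338 ϖ hne) = c1max338 g := by
  unfold c1max338; rw [mul_dpi_col1_338, mul_dpi_col1_338]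

include hϖ in
theorem c2max_mul_dpi338 (g : GL (Fin 2) k) :
    c2max338 (g * dpi338 ϖ hne) = c2max338 g * WithZero.exp (-1 : ℤ) := by
  unfold c2max338
  rw [mul_dpi_col2_338, mul_dpi_col2_338, map_mul, map_mul, hϖ]
  rcases le_total (Valued.v ((g : Matrix (Fin 2) (Fin 2) k) 0 1))
    (Valued.v ((g : Matrix (Fin 2) (Fin 2) k) 1 1)) with h | h
  · rw [max_eq_right h, max_eq_right (mul_le_mul_left h _)]
  · rw [max_eq_left h, max_eq_left (mul_le_mul_left h _)]

include hϖ in
/-- Case A: the first column attains the maximum. -/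
theorem entryMax_mul_dpi_of_eq338 {g : GL (Fin 2) k} (h : c1max338 g = entryMax g) :
    entryMax (g * dpi338 ϖ hne) = entryMax g := by
  rw [entryMax_eq_max338 (g * dpi338 ϖ hne), c1max_mul_dpi338 ϖ hne,
    c2max_mul_dpi338 ϖ hne hϖ, h]
  apply max_eq_left
  calc c2max338 g * WithZero.exp (-1 : ℤ) ≤ entryMax g * 1 :=
        mul_le_mul' (c2max_le338 g) exp_neg_one_lt_one338.le
    _ = entryMax g := mul_one _

include hϖ in
/-- Case B: the first column does not attain the maximum. -/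
theorem entryMax_mul_dpi_of_lt338 {g : GL (Fin 2) k} (h : c1max338 g < entryMax g) :
    entryMax (g * dpi338 ϖ hne) = entryMax g * WithZero.exp (-1 : ℤ) := by
  rw [entryMax_eq_max338 (g * dpi338 ϖ hne), c1max_mul_dpi338 ϖ hne,
    c2max_mul_dpi338 ϖ hne hϖ, c2max_eq_of_c1max_lt338 h]
  exact max_eq_right ((lt_iff_le_mul_exp338 (entryMax_ne_zero338 g)).1 h)

include hϖ in
theorem gd338_mul_dpi_of_eq {g : GL (Fin 2) k} (h : c1max338 g = entryMax g) :
    gd338 (g * dpi338 ϖ hne) = gd338 g + 1 := by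
  unfold gd338
  rw [entryMax_mul_dpi_of_eq338 ϖ hne hϖ h, det_mul_dpi338, map_mul, hϖ,
    WithZero.log_mul (valued_det_ne_zero338 g) WithZero.exp_ne_zero, WithZero.log_exp]
  ring

include hϖ in
theorem gd338_mul_dpi_of_lt {g : GL (Fin 2) k} (h : c1max338 g < entryMax g) :
    gd338 (g * dpi338 ϖ hne) + 1 = gd338 g := by
  unfold gd338
  rw [entryMax_mul_dpi_of_lt338 ϖ hne hϖ h, det_mul_dpi338, map_mul, hϖ,
    WithZero.log_mul (valued_det_ne_zero338 g) WithZero.exp_ne_zero,
    WithZero.log_mul (entryMax_ne_zero338 g) WithZero.exp_ne_zero, WithZero.log_exp]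
  ring

include hϖ in
theorem gd338_mul_dpi (g : GL (Fin 2) k) :
    gd338 (g * dpi338 ϖ hne) = gd338 g + 1 ∨ gd338 (g * dpi338 ϖ hne) + 1 = gd338 g := by
  rcases (c1max_le338 g).lt_or_eq with h | h
  · right; exact gd338_mul_dpi_of_lt ϖ hne hϖ h
  · left; exact gd338_mul_dpi_of_eq ϖ hne hϖ h

include hϖ in
/-- The step decreases `gd` exactly when the first column does not attain the maximum. -/
theorem gd338_mul_dpi_add_one_iff (g : GL (Fin 2) k) :
    gd338 (g * dpi338 ϖ hne) + 1 = gd338 g ↔ c1max338 g < entryMax g := by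
  constructor
  · intro h
    rcases (c1max_le338 g).lt_or_eq with h' | h'
    · exact h'
    · have := gd338_mul_dpi_of_eq ϖ hne hϖ h'
      omega
  · exact gd338_mul_dpi_of_lt ϖ hne hϖ

include hϖ in
theorem gd338_dpi : gd338 (dpi338 ϖ hne) = 1 := by
  have h1 : c1max338 (1 : GL (Fin 2) k) = entryMax (1 : GL (Fin 2) k) := by
    apply le_antisymm (c1max_le338 _)
    apply entryMax_le129
    intro i j
    have : Valued.v ((1 : Matrix (Fin 2) (Fin 2) k) i j) ≤ 1 := by
      by_cases hij : i = j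
      · subst hij; simp
      · simp [hij]
    refine le_trans this ?_
    simp [c1max338]
  have := gd338_mul_dpi_of_eq ϖ hne hϖ h1
  rw [one_mul] at this
  rw [this, gd338_of_InU ((inU_zero_iff129 _).2 (isMaxCpt129_one _))]
  norm_num

end Step

end Fermat.Agent.LT.H338

end
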