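import Fermat.Agent.LT.T6.H338.GStep
import Fermat.Agent.LT.H338.TreeQuot

/-!
# Row LT, tower T6 — `GL₂(k) / k^× GL₂(𝒪)` is a tree (helper338, OFF-MAIN)

Registry row T6.13b.  `k` a field with `Valued k ℤᵐ⁰` and an element of valuation `exp (-1)`.
`gD338 x y = a - b` for `cartan (x⁻¹ y) = (a, b)` is a pre-tree-distance in the sense of
`LT/H338/TreeQuot.lean`: the quotient of `GL₂(k)` by `gD = 0` (the relation
`x⁻¹ y ∈ k^× GL₂(𝒪)`) carries a tree distance (`IsTreeDist338`).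
-/

set_option autoImplicit false

open Matrix

noncomputable section

namespace Fermat.Agent.LT.H338

open Fermat.Agent.LT.T6 Fermat.Agent.LT.H129

variable {k : Type} [Field k] [Valued k Γ₀]

theorem inU_one338 : InU 0 (1 : GL (Fin 2) k) := (inU_zero_iff129 _).2 (isMaxCpt129_one _)

theorem gd338_one : gd338 (1 : GL (Fin 2) k) = 0 := gd338_of_InU inU_one338

/-- Left invariance under the elements with `gd = 0`. -/
theorem gd338_mul_left_of_eq_zero (g : GL (Fin 2) k) {h : GL (Fin 2) k} (hh : gd338 h = 0) :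
    gd338 (h * g) = gd338 g := by
  rw [← gd338_inv (h * g), _root_.mul_inv_rev,
    gd338_mul_right_of_eq_zero _ (by rw [gd338_inv]; exact hh), gd338_inv]

theorem entryMax_mul_right_U338 (g : GL (Fin 2) k) {u : GL (Fin 2) k} (hu : InU 0 u) :
    entryMax (g * u) = entryMax g :=
  entryMax_mul_right129 ((inU_zero_iff129 _).1 hu)

theorem valued_det_of_InU338 {u : GL (Fin 2) k} (hu : InU 0 u) :
    Valued.v (u : Matrix (Fin 2) (Fin 2) k).det = 1 :=
  valued_det_of_isMaxCpt129 ((inU_zero_iff129 _).1 hu)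

theorem entry_le_one_of_InU338 {u : GL (Fin 2) k} (hu : InU 0 u) (i j : Fin 2) :
    Valued.v ((u : Matrix (Fin 2) (Fin 2) k) i j) ≤ 1 :=
  ((inU_zero_iff129 _).1 hu).1 i j

section Step

variable (ϖ : k) (hne : ϖ ≠ 0) (hϖ : Valued.v ϖ = WithZero.exp (-1 : ℤ))

include hϖ in
/-- An element with `gd = 1` is `u * diag(1, ϖ) * h` with `u ∈ GL₂(𝒪)` and `gd h = 0`. -/
theorem exists_of_gd_eq_one338 {n : GL (Fin 2) k} (h : gd338 n = 1) :
    ∃ u h' : GL (Fin 2) k, InU 0 u ∧ gd338 h' = 0 ∧ n = u * dpi338 ϖ hne * h' := by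
  obtain ⟨u, u', x, y, hx, hy, hu, hu', hxy, hg, hc⟩ := exists_cartan_diag129 n
  have hvx : Valued.v x ≠ 0 := by rwa [ne_eq, map_eq_zero]
  have hvy : Valued.v y ≠ 0 := by rwa [ne_eq, map_eq_zero]
  have h1 : WithZero.log (Valued.v x) - WithZero.log (Valued.v y) = 1 := by
    rw [gd338_eq_cartan, hc] at h
    simp only at h
    omega
  have hy' : y / ϖ ≠ 0 := div_ne_zero hy hne
  have hvy' : Valued.v (y / ϖ) = Valued.v x := by
    apply log_inj129 (by rwa [ne_eq, map_eq_zero]) hvx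
    rw [map_div₀, hϖ, WithZero.log_div hvy WithZero.exp_ne_zero, WithZero.log_exp]
    omega
  have e : diag129 x y hx hy = dpi338 ϖ hne * diag129 x (y / ϖ) hx hy' := by
    rw [dpi338, diag129_mul]
    apply diag129_congr
    · rw [one_mul]
    · field_simp
  refine ⟨u, diag129 x (y / ϖ) hx hy' * u', hu, ?_, ?_⟩
  · rw [gd338_mul_right_U _ hu', gd338_eq_cartan, cartan_diag129 hx hy' hvy'.le, hvy']
    simp
  · rw [hg, e]; group

include hϖ in
theorem ne_zero_of_unif338 : ϖ ≠ 0 := by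
  intro e; rw [e, map_zero] at hϖ; exact WithZero.exp_ne_zero hϖ.symm

include hϖ in
/-- **Step**: right multiplication by an element with `gd = 1` changes `gd` by `± 1`. -/
theorem gd338_step (g : GL (Fin 2) k) {n : GL (Fin 2) k} (h : gd338 n = 1) :
    gd338 (g * n) = gd338 g + 1 ∨ gd338 (g * n) + 1 = gd338 g := by
  have hne : ϖ ≠ 0 := ne_zero_of_unif338 ϖ hϖ
  obtain ⟨u, h', hu, hh', rfl⟩ := exists_of_gd_eq_one338 ϖ hne hϖ h
  have e : g * (u * dpi338 ϖ hne * h') = (g * u) * dpi338 ϖ hne * h' := by group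
  rw [e, gd338_mul_right_of_eq_zero _ hh']
  have := gd338_mul_dpi ϖ hne hϖ (g * u)
  rwa [gd338_mul_right_U g hu] at this

omit [Valued k Γ₀] in
theorem dpi_inv338 : (dpi338 ϖ hne)⁻¹ = diag129 1 ϖ⁻¹ one_ne_zero (inv_ne_zero hne) := by
  rw [inv_eq_iff_mul_eq_one, dpi338, diag129_mul]
  apply ext_mat129
  ext i j
  fin_cases i <;> fin_cases j <;> simp [diag129, hne]

omit [Valued k Γ₀] in
theorem conj_dpi_apply338 (w : GL (Fin 2) k) :
    (((dpi338 ϖ hne)⁻¹ * w * dpi338 ϖ hne : GL (Fin 2) k) : Matrix (Fin 2) (Fin 2) k)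
      = !![w 0 0, w 0 1 * ϖ; ϖ⁻¹ * w 1 0, w 1 1] := by
  rw [dpi_inv338, dpi338]
  simp only [Matrix.GeneralLinearGroup.coe_mul, diag129, coe_mkGL129]
  conv_lhs => rw [eta129 w]
  ext i j
  fin_cases i <;> fin_cases j <;> simp [Matrix.mul_apply, Fin.sum_univ_two]
  field_simp

omit [Valued k Γ₀] in
theorem det_conj_dpi338 (w : GL (Fin 2) k) :
    (((dpi338 ϖ hne)⁻¹ * w * dpi338 ϖ hne : GL (Fin 2) k) : Matrix (Fin 2) (Fin 2) k).det
      = (w : Matrix (Fin 2) (Fin 2) k).det := by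
  rw [conj_dpi_apply338, Matrix.det_fin_two_of, det_eq338]
  field_simp

include hϖ in
/-- **Lemma C**: for `w ∈ GL₂(𝒪)`, `diag(1, ϖ)⁻¹ w diag(1, ϖ) ∈ k^× GL₂(𝒪)` iff `ϖ ∣ w₁₀`. -/
theorem gd338_conj_dpi_eq_zero_iff {w : GL (Fin 2) k} (hw : InU 0 w) :
    gd338 ((dpi338 ϖ hne)⁻¹ * w * dpi338 ϖ hne) = 0
      ↔ Valued.v ((w : Matrix (Fin 2) (Fin 2) k) 1 0) < 1 := by
  have hvϖ : Valued.v ϖ ≠ 0 := by rwa [ne_eq, map_eq_zero]
  constructor
  · intro h
    have h0 := (gd338_eq_zero_iff _).1 h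
    rw [det_conj_dpi338, valued_det_of_InU338 hw] at h0
    set M := entryMax ((dpi338 ϖ hne)⁻¹ * w * dpi338 ϖ hne) with hM
    have hM0 : M ≠ 0 := entryMax_ne_zero338 _
    have hM1 : M = 1 := by
      apply log_inj129 hM0 one_ne_zero
      have := congrArg WithZero.log h0
      rw [WithZero.log_mul hM0 hM0, WithZero.log_one] at this
      rw [WithZero.log_one]; omega
    have h10 := entry_le_entryMax129 ((dpi338 ϖ hne)⁻¹ * w * dpi338 ϖ hne) 1 0
    rw [← hM, hM1, conj_dpi_apply338] at h10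
    simp only [Matrix.of_apply, Matrix.cons_val', Matrix.cons_val_zero, Matrix.cons_val_one,
      Matrix.cons_val_fin_one] at h10
    rw [map_mul, map_inv₀, hϖ] at h10
    have : Valued.v ((w : Matrix (Fin 2) (Fin 2) k) 1 0) ≤ WithZero.exp (-1 : ℤ) := by
      have h2 := mul_le_mul' (le_refl (WithZero.exp (-1 : ℤ) : Γ₀)) h10
      rwa [← mul_assoc, mul_inv_cancel₀ WithZero.exp_ne_zero, one_mul, mul_one] at h2
    exact lt_of_le_of_lt this exp_neg_one_lt_one338
  · intro h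
    apply gd338_of_InU
    rw [inU_zero_iff129]
    have hint : IsInt129 (vO129 k) ((dpi338 ϖ hne)⁻¹ * w * dpi338 ϖ hne) := by
      intro i j
      rw [conj_dpi_apply338, mem_vO129]
      fin_cases i <;> fin_cases j
      · simpa using entry_le_one_of_InU338 hw 0 0
      · simp only [Fin.zero_eta, Fin.mk_one, Matrix.of_apply, Matrix.cons_val', Matrix.cons_val_zero,
          Matrix.cons_val_one, Matrix.cons_val_fin_one]
        rw [map_mul, hϖ]
        calc _ ≤ (1 : Γ₀) * 1 :=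
              mul_le_mul' (entry_le_one_of_InU338 hw 0 1) exp_neg_one_lt_one338.le
          _ = 1 := mul_one _
      · simp only [Fin.zero_eta, Fin.mk_one, Matrix.of_apply, Matrix.cons_val', Matrix.cons_val_zero,
          Matrix.cons_val_one, Matrix.cons_val_fin_one]
        rw [map_mul, map_inv₀, hϖ]
        have h2 := (lt_iff_le_mul_exp338 (one_ne_zero (α := Γ₀))).1 h
        rw [one_mul] at h2
        calc _ ≤ (WithZero.exp (-1 : ℤ) : Γ₀)⁻¹ * WithZero.exp (-1 : ℤ) := mul_le_mul' le_rfl h2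
          _ = 1 := inv_mul_cancel₀ WithZero.exp_ne_zero
      · simpa using entry_le_one_of_InU338 hw 1 1
    refine ⟨hint, isInt129_inv_of_det hint ?_⟩
    rw [mem_vO129, map_inv₀, det_conj_dpi338, valued_det_of_InU338 hw, inv_one]

end Step

/-! ### Towards a given point -/

/-- If `gd g ≠ 0` some `u ∈ GL₂(𝒪)` makes the first column of `g u` non-maximal. -/
theorem exists_col_lt338 {g : GL (Fin 2) k} (hg : gd338 g ≠ 0) :
    ∃ u : GL (Fin 2) k, InU 0 u ∧ c1max338 (g * u) < entryMax g := by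
  have hdet := (gd338_ne_zero_iff g).1 hg
  have hM := entryMax_ne_zero338 g
  by_cases hc : c2max338 g = entryMax g
  · obtain ⟨i, hi⟩ := exists_col2_eq338 g
    rw [hc] at hi
    have hgi : (g : Matrix (Fin 2) (Fin 2) k) i 1 ≠ 0 := by
      intro e; rw [e, map_zero] at hi; exact hM hi.symm
    set t : k := - (g : Matrix (Fin 2) (Fin 2) k) i 0 / (g : Matrix (Fin 2) (Fin 2) k) i 1 with ht
    have hvt : Valued.v t ≤ 1 := by
      rw [ht, map_div₀, Valuation.map_neg, hi]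
      rw [div_le_one₀ (zero_lt_iff.mpr hM)]
      exact entry_le_entryMax129 g i 0
    refine ⟨lowerU129 t, (inU_zero_iff129 _).2 (isMaxCpt129_lowerU ((mem_vO129 t).2 hvt)), ?_⟩
    have hcol : ∀ j : Fin 2, ((g * lowerU129 t : GL (Fin 2) k) : Matrix (Fin 2) (Fin 2) k) j 0
        = g j 0 + g j 1 * t := by
      intro j
      rw [Matrix.GeneralLinearGroup.coe_mul, Matrix.mul_apply, Fin.sum_univ_two]
      simp [lowerU129]
    have hlt : Valued.v ((g : Matrix (Fin 2) (Fin 2) k).det / (g : Matrix (Fin 2) (Fin 2) k) i 1)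
        < entryMax g := by
      rw [map_div₀, hi, div_lt_iff₀ (zero_lt_iff.mpr hM)]
      exact hdet
    have hpos : (0 : Γ₀) < entryMax g := zero_lt_iff.mpr hM
    unfold c1max338
    rw [hcol, hcol, max_lt_iff]
    fin_cases i
    · simp only [Fin.zero_eta] at ht hgi hlt hi
      constructor
      · have : (g : Matrix (Fin 2) (Fin 2) k) 0 0 + g 0 1 * t = 0 := by
          rw [ht]; field_simp; ring
        rw [this, map_zero]; exact hpos
      · have : (g : Matrix (Fin 2) (Fin 2) k) 1 0 + g 1 1 * t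
            = - ((g : Matrix (Fin 2) (Fin 2) k).det / g 0 1) := by
          rw [ht, det_eq338]; field_simp; ring
        rw [this, Valuation.map_neg]; exact hlt
    · simp only [Fin.mk_one] at ht hgi hlt hi
      constructor
      · have : (g : Matrix (Fin 2) (Fin 2) k) 0 0 + g 0 1 * t
            = (g : Matrix (Fin 2) (Fin 2) k).det / g 1 1 := by
          rw [ht, det_eq338]; field_simp; ring
        rw [this]; exact hlt
      · have : (g : Matrix (Fin 2) (Fin 2) k) 1 0 + g 1 1 * t = 0 := by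
          rw [ht]; field_simp; ring
        rw [this, map_zero]; exact hpos
  · refine ⟨weyl129, (inU_zero_iff129 _).2 (isMaxCpt129_weyl _), ?_⟩
    have h2 : c2max338 g < entryMax g := lt_of_le_of_ne (c2max_le338 g) hc
    have : c1max338 (g * weyl129) = c2max338 g := by
      unfold c1max338 c2max338
      rw [coe_mul_weyl129]
      simp
    rw [this]; exact h2

/-- Two elements of `GL₂(𝒪)` which both make the first column non-maximal differ by an element
with `ϖ ∣ w₁₀`. -/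
theorem col_lt_unique338 {g u u' : GL (Fin 2) k} (hu : InU 0 u) (hu' : InU 0 u')
    (h1 : c1max338 (g * u) < entryMax g) (h2 : c1max338 (g * u') < entryMax g) :
    Valued.v (((u⁻¹ * u' : GL (Fin 2) k) : Matrix (Fin 2) (Fin 2) k) 1 0) < 1 := by
  have hM := entryMax_ne_zero338 g
  have hw : InU 0 (u⁻¹ * u') := inU_zero_mul129 (inU_zero_inv129 hu) hu'
  have e : g * u' = (g * u) * (u⁻¹ * u') := by group
  have hMh : entryMax (g * u) = entryMax g := entryMax_mul_right_U338 g hu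
  rw [← hMh] at h1
  have hc2 := c2max_eq_of_c1max_lt338 h1
  obtain ⟨i, hi⟩ := exists_col2_eq338 (g * u)
  rw [hc2, hMh] at hi
  rw [hMh] at h1
  have h3 : Valued.v (((g * u') : GL (Fin 2) k) i 0) < entryMax g :=
    lt_of_le_of_lt (entry_col1_le338 _ i) h2
  rw [e, Matrix.GeneralLinearGroup.coe_mul, Matrix.mul_apply, Fin.sum_univ_two] at h3
  have h4 : Valued.v (((g * u : GL (Fin 2) k) : Matrix (Fin 2) (Fin 2) k) i 0
      * ((u⁻¹ * u' : GL (Fin 2) k) : Matrix (Fin 2) (Fin 2) k) 0 0) < entryMax g := by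
    rw [map_mul]
    calc _ ≤ Valued.v (((g * u : GL (Fin 2) k) : Matrix (Fin 2) (Fin 2) k) i 0) * 1 :=
          mul_le_mul' le_rfl (entry_le_one_of_InU338 hw 0 0)
      _ = _ := mul_one _
      _ ≤ c1max338 (g * u) := entry_col1_le338 _ i
      _ < entryMax g := h1
  have h5 : Valued.v (((g * u : GL (Fin 2) k) : Matrix (Fin 2) (Fin 2) k) i 1
      * ((u⁻¹ * u' : GL (Fin 2) k) : Matrix (Fin 2) (Fin 2) k) 1 0) < entryMax g := by
    have e5 : ((g * u : GL (Fin 2) k) : Matrix (Fin 2) (Fin 2) k) i 1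
        * ((u⁻¹ * u' : GL (Fin 2) k) : Matrix (Fin 2) (Fin 2) k) 1 0
        = (((g * u : GL (Fin 2) k) : Matrix (Fin 2) (Fin 2) k) i 0
            * ((u⁻¹ * u' : GL (Fin 2) k) : Matrix (Fin 2) (Fin 2) k) 0 0
          + ((g * u : GL (Fin 2) k) : Matrix (Fin 2) (Fin 2) k) i 1
            * ((u⁻¹ * u' : GL (Fin 2) k) : Matrix (Fin 2) (Fin 2) k) 1 0)
          - ((g * u : GL (Fin 2) k) : Matrix (Fin 2) (Fin 2) k) i 0
            * ((u⁻¹ * u' : GL (Fin 2) k) : Matrix (Fin 2) (Fin 2) k) 0 0 := by ring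
    rw [e5]
    exact lt_of_le_of_lt (Valuation.map_sub _ _ _) (max_lt h3 h4)
  rw [map_mul, hi] at h5
  by_contra hcon
  rw [not_lt] at hcon
  have : entryMax g * 1 ≤ entryMax g
      * Valued.v (((u⁻¹ * u' : GL (Fin 2) k) : Matrix (Fin 2) (Fin 2) k) 1 0) :=
    mul_le_mul' le_rfl hcon
  rw [mul_one] at this
  exact lt_irrefl _ (lt_of_le_of_lt this h5)

/-! ### The pre-tree-distance -/

/-- `gD x y = a - b` for `cartan (x⁻¹ y) = (a, b)`. -/
def gD338 (x y : GL (Fin 2) k) : ℕ := (gd338 (x⁻¹ * y)).toNat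

theorem gD338_cast (x y : GL (Fin 2) k) : ((gD338 x y : ℕ) : ℤ) = gd338 (x⁻¹ * y) :=
  Int.toNat_of_nonneg (gd338_nonneg _)

theorem gD338_eq_iff (x y : GL (Fin 2) k) (n : ℕ) : gD338 x y = n ↔ gd338 (x⁻¹ * y) = n := by
  rw [← gD338_cast]; exact Nat.cast_inj.symm

/-- **`gD` is a pre-tree-distance.** -/
theorem isPreTreeDist_gD338 (hk : ∃ ϖ : k, Valued.v ϖ = WithZero.exp (-1 : ℤ)) :
    IsPreTreeDist338 (gD338 (k := k)) := by
  obtain ⟨ϖ, hϖ⟩ := hk
  have hne : ϖ ≠ 0 := by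
    intro e; rw [e, map_zero] at hϖ; exact WithZero.exp_ne_zero hϖ.symm
  refine ⟨?_, ?_, ?_, ?_, ?_, ?_⟩
  · intro x
    rw [gD338_eq_iff, inv_mul_cancel, gd338_one]; rfl
  · intro x y
    unfold gD338
    rw [← gd338_inv (x⁻¹ * y), _root_.mul_inv_rev, inv_inv]
  · intro x y h z
    have h0 : gd338 (x⁻¹ * y) = 0 := by rw [gD338_eq_iff] at h; simpa using h
    unfold gD338
    have e : z⁻¹ * y = (z⁻¹ * x) * (x⁻¹ * y) := by group
    rw [e, gd338_mul_right_of_eq_zero _ h0]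
  · intro u v w h
    have h1 : gd338 (v⁻¹ * w) = 1 := by rw [gD338_eq_iff] at h; simpa using h
    have e : u⁻¹ * w = (u⁻¹ * v) * (v⁻¹ * w) := by group
    have hs := gd338_step ϖ hϖ (u⁻¹ * v) h1
    rw [← e, ← gD338_cast, ← gD338_cast] at hs
    omega
  · intro u v h
    have h0 : gd338 (u⁻¹ * v) ≠ 0 := by
      intro e; apply h; rw [gD338_eq_iff, e]; rfl
    obtain ⟨u₁, hu₁, hc⟩ := exists_col_lt338 h0
    refine ⟨v * (u₁ * dpi338 ϖ hne), ?_, ?_⟩
    · rw [gD338_eq_iff, inv_mul_cancel_left, gd338_mul_left_U _ hu₁, gd338_dpi ϖ hne hϖ]; rfl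
    · have e : u⁻¹ * (v * (u₁ * dpi338 ϖ hne)) = (u⁻¹ * v * u₁) * dpi338 ϖ hne := by group
      have h2 := gd338_mul_dpi_of_lt ϖ hne hϖ (g := u⁻¹ * v * u₁)
        (by rw [entryMax_mul_right_U338 _ hu₁]; exact hc)
      rw [gd338_mul_right_U _ hu₁, ← e, ← gD338_cast, ← gD338_cast] at h2
      omega
  · intro u v w w' hw hw' hd hd'
    have h1 : gd338 (v⁻¹ * w) = 1 := by rw [gD338_eq_iff] at hw; simpa using hw
    have h1' : gd338 (v⁻¹ * w') = 1 := by rw [gD338_eq_iff] at hw'; simpa using hw'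
    obtain ⟨u₁, a, hu₁, ha, e₁⟩ := exists_of_gd_eq_one338 ϖ hne hϖ h1
    obtain ⟨u₁', a', hu₁', ha', e₁'⟩ := exists_of_gd_eq_one338 ϖ hne hϖ h1'
    -- the two columns
    have key : ∀ (w₀ u₀ a₀ : GL (Fin 2) k), InU 0 u₀ → gd338 a₀ = 0 →
        v⁻¹ * w₀ = u₀ * dpi338 ϖ hne * a₀ → gD338 u w₀ + 1 = gD338 u v →
        c1max338 (u⁻¹ * v * u₀) < entryMax (u⁻¹ * v) := by
      intro w₀ u₀ a₀ hu₀ ha₀ e₀ hd₀
      have e : u⁻¹ * w₀ = (u⁻¹ * v * u₀) * dpi338 ϖ hne * a₀ := by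
        have : u⁻¹ * w₀ = (u⁻¹ * v) * (v⁻¹ * w₀) := by group
        rw [this, e₀]; group
      have h2 : gd338 ((u⁻¹ * v * u₀) * dpi338 ϖ hne) + 1 = gd338 (u⁻¹ * v * u₀) := by
        rw [gd338_mul_right_U _ hu₀, ← gd338_mul_right_of_eq_zero _ ha₀, ← e, ← gD338_cast,
          ← gD338_cast]
        omega
      have := (gd338_mul_dpi_add_one_iff ϖ hne hϖ _).1 h2
      rwa [entryMax_mul_right_U338 _ hu₀] at this
    have hc := key w u₁ a hu₁ ha e₁ hd
    have hc' := key w' u₁' a' hu₁' ha' e₁' hd'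
    have hlt := col_lt_unique338 hu₁ hu₁' hc hc'
    have hw0 : InU 0 (u₁⁻¹ * u₁') := inU_zero_mul129 (inU_zero_inv129 hu₁) hu₁'
    have hz := (gd338_conj_dpi_eq_zero_iff ϖ hne hϖ hw0).2 hlt
    rw [gD338_eq_iff]
    have e : w⁻¹ * w' = a⁻¹ * ((dpi338 ϖ hne)⁻¹ * (u₁⁻¹ * u₁') * dpi338 ϖ hne) * a' := by
      have : w⁻¹ * w' = (v⁻¹ * w)⁻¹ * (v⁻¹ * w') := by group
      rw [this, e₁, e₁']; group
    rw [e, gd338_mul_right_of_eq_zero _ ha',
      gd338_mul_left_of_eq_zero _ (by rw [gd338_inv]; exact ha), hz]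
    rfl

end Fermat.Agent.LT.H338

end
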